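import Mathlib

/-!
# Concrete presentation of `groupCohomology A n` by cocycles modulo coboundaries

For every degree `n` (not only the low degrees covered by Mathlib's `LowDegree` file) we describe
`groupCohomology A n` elementwise: `cls A n : Z A n →ₗ[k] groupCohomology A n` is surjective, and
its kernel consists of the coboundaries.
-/

noncomputable section

universe u

namespace Fermat.Agent.CFT.Cup

open CategoryTheory groupCohomology

variable {k G : Type u} [CommRing k] [Group G]

/-- Mathlib's differential on inhomogeneous cochains, as a plain function. -/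
abbrev dF (A : Rep.{u} k G) (n : ℕ) (f : (Fin n → G) → A.V) : (Fin (n + 1) → G) → A.V :=
  (inhomogeneousCochains.d A n).hom f

lemma dF_apply (A : Rep.{u} k G) (n : ℕ) (f : (Fin n → G) → A.V) (g : Fin (n + 1) → G) :
    dF A n f g = A.ρ (g 0) (f fun i => g i.succ) +
      ∑ j : Fin (n + 1), (-1 : k) ^ ((j : ℕ) + 1) • f (Fin.contractNth j (· * ·) g) :=
  inhomogeneousCochains.d_hom_apply A n f g

lemma dF_dF (A : Rep.{u} k G) (n : ℕ) (f : (Fin n → G) → A.V) :
    dF A (n + 1) (dF A n f) = 0 := by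
  have := inhomogeneousCochains.d_comp_d (n := n) A
  exact congr($(this).hom f)

/-- The `n`-cocycles of `A`, as a submodule of the `n`-cochains. -/
def Z (A : Rep.{u} k G) (n : ℕ) : Submodule k ((Fin n → G) → A.V) :=
  LinearMap.ker (inhomogeneousCochains.d A n).hom

lemma mem_Z {A : Rep.{u} k G} {n : ℕ} {a : (Fin n → G) → A.V} : a ∈ Z A n ↔ dF A n a = 0 :=
  LinearMap.mem_ker

lemma Z_prop {A : Rep.{u} k G} {n : ℕ} (a : Z A n) :
    (inhomogeneousCochains.d A n) a.1 = 0 := mem_Z.1 a.2

lemma dF_mem_Z (A : Rep.{u} k G) (n : ℕ) (f : (Fin n → G) → A.V) : dF A n f ∈ Z A (n + 1) :=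
  mem_Z.2 (dF_dF A n f)

lemma iCocycles_injective (A : Rep.{u} k G) (n : ℕ) : Function.Injective (iCocycles A n) :=
  (ModuleCat.mono_iff_injective (iCocycles A n)).1 inferInstance

/-- The bundled cocycle of Mathlib attached to an element of `Z A n`. -/
def toCocycles' (A : Rep.{u} k G) (n : ℕ) : Z A n →ₗ[k] cocycles A n where
  toFun a := cocyclesMk a.1 (Z_prop a)
  map_add' a b := iCocycles_injective A n (by
    rw [map_add, iCocycles_mk, iCocycles_mk, iCocycles_mk]; rfl)
  map_smul' r a := iCocycles_injective A n (by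
    rw [map_smul, iCocycles_mk, iCocycles_mk]; rfl)

@[simp] lemma iCocycles_toCocycles' (A : Rep.{u} k G) (n : ℕ) (a : Z A n) :
    iCocycles A n (toCocycles' A n a) = a.1 := iCocycles_mk a.1 (Z_prop a)

lemma dF_iCocycles (A : Rep.{u} k G) (n : ℕ) (x : cocycles A n) :
    dF A n (iCocycles A n x) = 0 := by
  have h : iCocycles A n ≫ (inhomogeneousCochains A).d n (n + 1) = 0 :=
    (inhomogeneousCochains A).iCycles_d n (n + 1)
  rw [inhomogeneousCochains.d_def] at h
  exact congr($(h).hom x)

/-- The underlying cochain of a bundled cocycle of Mathlib, as an element of `Z A n`. -/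
def ofCocycles' (A : Rep.{u} k G) (n : ℕ) : cocycles A n →ₗ[k] Z A n :=
  LinearMap.codRestrict _ (iCocycles A n).hom (fun x => mem_Z.2 (dF_iCocycles A n x))

@[simp] lemma ofCocycles'_coe (A : Rep.{u} k G) (n : ℕ) (x : cocycles A n) :
    (ofCocycles' A n x : (Fin n → G) → A.V) = iCocycles A n x := rfl

@[simp] lemma toCocycles'_ofCocycles' (A : Rep.{u} k G) (n : ℕ) (x : cocycles A n) :
    toCocycles' A n (ofCocycles' A n x) = x :=
  iCocycles_injective A n (by rw [iCocycles_toCocycles', ofCocycles'_coe])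

@[simp] lemma ofCocycles'_toCocycles' (A : Rep.{u} k G) (n : ℕ) (a : Z A n) :
    ofCocycles' A n (toCocycles' A n a) = a :=
  Subtype.ext (by rw [ofCocycles'_coe, iCocycles_toCocycles'])

/-- The class of a cocycle in `groupCohomology A n`. -/
def cls (A : Rep.{u} k G) (n : ℕ) : Z A n →ₗ[k] groupCohomology A n :=
  (π A n).hom ∘ₗ toCocycles' A n

lemma cls_apply (A : Rep.{u} k G) (n : ℕ) (a : Z A n) :
    cls A n a = π A n (cocyclesMk a.1 (Z_prop a)) := rfl

lemma cls_mk (A : Rep.{u} k G) (n : ℕ) (a : (Fin n → G) → A.V) (ha : dF A n a = 0) :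
    cls A n ⟨a, mem_Z.2 ha⟩ = π A n (cocyclesMk a ha) := rfl

lemma π_eq_cls (A : Rep.{u} k G) (n : ℕ) (x : cocycles A n) :
    π A n x = cls A n (ofCocycles' A n x) := by
  rw [cls, LinearMap.comp_apply, toCocycles'_ofCocycles']

lemma cls_surjective (A : Rep.{u} k G) (n : ℕ) : Function.Surjective (cls A n) := by
  intro x
  induction x using groupCohomology_induction_on with
  | h x => exact ⟨ofCocycles' A n x, (π_eq_cls A n x).symm⟩

@[elab_as_elim]
theorem cls_induction_on {A : Rep.{u} k G} {n : ℕ} {P : groupCohomology A n → Prop}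
    (x : groupCohomology A n) (h : ∀ a : Z A n, P (cls A n a)) : P x := by
  obtain ⟨a, rfl⟩ := cls_surjective A n x
  exact h a

/-- general form of "a class vanishes iff the cocycle is a coboundary" -/
lemma π_eq_zero_iff_aux (A : Rep.{u} k G) (i j : ℕ) (hi : (ComplexShape.up ℕ).prev j = i)
    (x : cocycles A j) :
    π A j x = 0 ↔ ∃ y, (inhomogeneousCochains A).d i j y = iCocycles A j x := by
  let K := inhomogeneousCochains A
  have hex : (ShortComplex.mk (K.toCycles i j) (K.homologyπ j)
      (K.toCycles_comp_homologyπ i j)).Exact :=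
    ShortComplex.exact_of_g_is_cokernel _ (K.homologyIsCokernel i j hi)
  rw [ShortComplex.moduleCat_exact_iff] at hex
  constructor
  · intro h
    obtain ⟨y, hy⟩ := hex x h
    refine ⟨y, ?_⟩
    have := congr($(K.toCycles_i i j).hom y)
    simp only [ModuleCat.hom_comp, LinearMap.comp_apply] at this
    rw [← this]
    exact congrArg _ hy
  · rintro ⟨y, hy⟩
    have hx : K.toCycles i j y = x := by
      apply iCocycles_injective A j
      have := congr($(K.toCycles_i i j).hom y)
      simp only [ModuleCat.hom_comp, LinearMap.comp_apply] at this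
      exact this.trans hy
    rw [← hx]
    exact congr($(K.toCycles_comp_homologyπ i j).hom y)

lemma cls_eq_zero_iff_succ (A : Rep.{u} k G) (n : ℕ) (a : Z A (n + 1)) :
    cls A (n + 1) a = 0 ↔ ∃ y : (Fin n → G) → A.V, dF A n y = a.1 := by
  rw [cls_apply, π_eq_zero_iff_aux A n (n + 1) (CochainComplex.prev_nat_succ n), iCocycles_mk,
    inhomogeneousCochains.d_def]

lemma cls_eq_zero_iff_zero (A : Rep.{u} k G) (a : Z A 0) :
    cls A 0 a = 0 ↔ a = 0 := by
  rw [cls_apply, π_eq_zero_iff_aux A 0 0 CochainComplex.prev_nat_zero, iCocycles_mk]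
  have h0 : (inhomogeneousCochains A).d 0 0 = 0 :=
    (inhomogeneousCochains A).shape 0 0 (by simp)
  rw [h0]
  constructor
  · rintro ⟨y, hy⟩
    apply Subtype.ext
    rw [← hy]
    rfl
  · rintro rfl
    exact ⟨0, rfl⟩

lemma cls_dF (A : Rep.{u} k G) (n : ℕ) (y : (Fin n → G) → A.V) :
    cls A (n + 1) ⟨dF A n y, dF_mem_Z A n y⟩ = 0 :=
  (cls_eq_zero_iff_succ A n _).2 ⟨y, rfl⟩

lemma cls_eq_cls_iff_succ (A : Rep.{u} k G) (n : ℕ) (a b : Z A (n + 1)) :
    cls A (n + 1) a = cls A (n + 1) b ↔ ∃ y : (Fin n → G) → A.V, dF A n y = a.1 - b.1 := by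
  rw [← sub_eq_zero, ← map_sub, cls_eq_zero_iff_succ]
  rfl

end Fermat.Agent.CFT.Cup
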