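import Mathlib
import Fermat.Agent.CFT.Cup.Classes

/-!
# Cup product on inhomogeneous cochains (PROJECT C, slice A3a)

`A B C : Rep k G`, a `G`-equivariant bilinear pairing `φ : A → B → C`.
For `a : Gᵖ → A`, `b : G^q → B` and `h : p + q = n` we define

`(a ∪ b)(g₁, …, gₙ) = φ (a (g₁, …, g_p)) ((g₁ ⋯ g_p) • b (g_{p+1}, …, gₙ))`

and prove the Leibniz rule `d (a ∪ b) = d a ∪ b + (-1)ᵖ • a ∪ d b` with respect to Mathlib's
`inhomogeneousCochains.d`.
-/

noncomputable section

set_option linter.unusedSectionVars false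
set_option linter.unusedVariables false

universe u

namespace Fermat.Agent.CFT.Cup

open CategoryTheory

variable {k G : Type u} [CommRing k] [Group G]

/-- A `G`-equivariant `k`-bilinear pairing `A × B → C` of representations. -/
structure Pairing (A B C : Rep.{u} k G) where
  /-- the underlying bilinear map -/
  toLin : A.V →ₗ[k] B.V →ₗ[k] C.V
  /-- equivariance -/
  map_ρ : ∀ (g : G) (a : A.V) (b : B.V), toLin (A.ρ g a) (B.ρ g b) = C.ρ g (toLin a b)

namespace Pairing

variable {A B C : Rep.{u} k G}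

lemma ρ_apply (φ : Pairing A B C) (g : G) (a : A.V) (b : B.V) :
    C.ρ g (φ.toLin a b) = φ.toLin (A.ρ g a) (B.ρ g b) := (φ.map_ρ g a b).symm

end Pairing

/-! ### Splitting tuples -/

section Tuples

variable {α : Type*}

/-- The first `p` entries of an `n`-tuple (`p + q = n`). -/
def tupleFst {p q n : ℕ} (h : p + q = n) (g : Fin n → α) : Fin p → α :=
  fun i => g ⟨i, by omega⟩

/-- The last `q` entries of an `n`-tuple (`p + q = n`). -/
def tupleSnd {p q n : ℕ} (h : p + q = n) (g : Fin n → α) : Fin q → α :=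
  fun j => g ⟨p + j, by omega⟩

@[simp] lemma tupleFst_apply {p q n : ℕ} (h : p + q = n) (g : Fin n → α) (i : Fin p) :
    tupleFst h g i = g ⟨i, by omega⟩ := rfl

@[simp] lemma tupleSnd_apply {p q n : ℕ} (h : p + q = n) (g : Fin n → α) (j : Fin q) :
    tupleSnd h g j = g ⟨p + j, by omega⟩ := rfl

end Tuples

/-- The product of the first `p` entries of a tuple. -/
def prodFst {n : ℕ} (p : ℕ) (hp : p ≤ n) (g : Fin n → G) : G :=
  Fin.partialProd g ⟨p, by omega⟩

section TupleLemmas

variable {p q n : ℕ}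

lemma tupleFst_tail (h : p + q = n) (h₁ : (p + 1) + q = n + 1) (g : Fin (n + 1) → G) :
    tupleFst h (fun i => g i.succ) = fun i => tupleFst h₁ g i.succ := by
  funext i; simp [tupleFst]

lemma tupleSnd_tail (h : p + q = n) (h₁ : (p + 1) + q = n + 1) (g : Fin (n + 1) → G) :
    tupleSnd h (fun i => g i.succ) = tupleSnd h₁ g := by
  funext j
  simp only [tupleSnd]
  congr 1
  ext
  simp
  omega

lemma prodFst_succ_tail (hp : p ≤ n) (g : Fin (n + 1) → G) :
    prodFst (p + 1) (by omega) g = g 0 * prodFst p hp (fun i => g i.succ) := by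
  unfold prodFst
  exact Fin.partialProd_succ' g ⟨p, by omega⟩

lemma prodFst_succ (hp : p + 1 ≤ n) (g : Fin n → G) :
    prodFst (p + 1) hp g = prodFst p (by omega) g * g ⟨p, by omega⟩ := by
  unfold prodFst
  have := Fin.partialProd_succ g ⟨p, by omega⟩
  simpa using this

/-- contraction at a position `j < p` inside the first block -/
lemma tupleFst_contractNth_lt (h : p + q = n) (h₁ : (p + 1) + q = n + 1) (g : Fin (n + 1) → G)
    (j : Fin p) :
    tupleFst h (Fin.contractNth ⟨j, by omega⟩ (· * ·) g) =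
      Fin.contractNth j.castSucc (· * ·) (tupleFst h₁ g) := by
  funext i
  simp only [tupleFst, Fin.contractNth, Fin.val_castSucc]
  rfl

lemma tupleSnd_contractNth_lt (h : p + q = n) (h₁ : (p + 1) + q = n + 1) (g : Fin (n + 1) → G)
    (j : Fin p) :
    tupleSnd h (Fin.contractNth ⟨j, by omega⟩ (· * ·) g) = tupleSnd h₁ g := by
  funext i
  have hlt : ¬ (p + (i : ℕ) < j) := by omega
  have hne : ¬ (p + (i : ℕ) = j) := by omega
  simp only [tupleSnd, Fin.contractNth, hlt, hne, if_false]
  congr 1
  ext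
  simp
  omega

lemma prodFst_contractNth_lt (hp : p ≤ n) (g : Fin (n + 1) → G) (j : Fin (n + 1))
    (hj : (j : ℕ) < p) :
    prodFst p hp (Fin.contractNth j (· * ·) g) = prodFst (p + 1) (by omega) g := by
  unfold prodFst
  rw [Fin.partialProd_contractNth, Function.comp_apply]
  congr 1
  rw [Fin.succAbove_of_lt_succ]
  · ext; simp
  · simp [Fin.lt_def]; omega

lemma prodFst_contractNth_ge (hp : p ≤ n) (g : Fin (n + 1) → G) (j : Fin (n + 1))
    (hj : p ≤ (j : ℕ)) :
    prodFst p hp (Fin.contractNth j (· * ·) g) = prodFst p (by omega) g := by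
  unfold prodFst
  rw [Fin.partialProd_contractNth, Function.comp_apply]
  congr 1
  rw [Fin.succAbove_of_castSucc_lt]
  · ext; simp
  · simp [Fin.lt_def]; omega

/-- contraction at the last position of the first block -/
lemma contractNth_last_tupleFst (h : p + q = n) (h₁ : (p + 1) + q = n + 1)
    (h₂ : p + (q + 1) = n + 1) (g : Fin (n + 1) → G) :
    Fin.contractNth (Fin.last p) (· * ·) (tupleFst h₁ g) = tupleFst h₂ g := by
  funext i
  have : (i : ℕ) < p := i.2
  simp [tupleFst, Fin.contractNth, this]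

/-- contraction at a position `p + j` inside the second block -/
lemma tupleFst_contractNth_ge (h : p + q = n) (h₂ : p + (q + 1) = n + 1) (g : Fin (n + 1) → G)
    (j : Fin (q + 1)) :
    tupleFst h (Fin.contractNth ⟨p + j, by omega⟩ (· * ·) g) = tupleFst h₂ g := by
  funext i
  have : (i : ℕ) < p + j := by omega
  simp [tupleFst, Fin.contractNth, this]

lemma tupleSnd_contractNth_ge (h : p + q = n) (h₂ : p + (q + 1) = n + 1) (g : Fin (n + 1) → G)
    (j : Fin (q + 1)) :
    tupleSnd h (Fin.contractNth ⟨p + j, by omega⟩ (· * ·) g) =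
      Fin.contractNth j (· * ·) (tupleSnd h₂ g) := by
  funext i
  simp only [tupleSnd, Fin.contractNth, add_lt_add_iff_left, add_right_inj, Fin.val_castSucc,
    Fin.val_succ]
  rfl

lemma tupleSnd_succ_tail (h₁ : (p + 1) + q = n + 1) (h₂ : p + (q + 1) = n + 1)
    (g : Fin (n + 1) → G) :
    (fun i : Fin q => tupleSnd h₂ g i.succ) = tupleSnd h₁ g := by
  funext i
  simp only [tupleSnd, Fin.val_succ]
  congr 1
  ext
  simp
  omega

end TupleLemmas

/-! ### The cup product of cochains -/

variable {A B C : Rep.{u} k G}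

/-- The cup product of inhomogeneous cochains (as a plain function). -/
def cupFun (φ : Pairing A B C) {p q n : ℕ} (h : p + q = n)
    (a : (Fin p → G) → A.V) (b : (Fin q → G) → B.V) : (Fin n → G) → C.V :=
  fun g => φ.toLin (a (tupleFst h g)) (B.ρ (prodFst p (by omega) g) (b (tupleSnd h g)))

lemma cupFun_apply (φ : Pairing A B C) {p q n : ℕ} (h : p + q = n)
    (a : (Fin p → G) → A.V) (b : (Fin q → G) → B.V) (g : Fin n → G) :
    cupFun φ h a b g =
      φ.toLin (a (tupleFst h g)) (B.ρ (prodFst p (by omega) g) (b (tupleSnd h g))) :=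
  rfl

/-- The cup product of inhomogeneous cochains as a bilinear map. -/
def cupCochain (φ : Pairing A B C) {p q n : ℕ} (h : p + q = n) :
    ((Fin p → G) → A.V) →ₗ[k] ((Fin q → G) → B.V) →ₗ[k] ((Fin n → G) → C.V) :=
  LinearMap.mk₂ k (cupFun φ h)
    (fun a a' b => by funext g; simp [cupFun_apply])
    (fun r a b => by funext g; simp [cupFun_apply])
    (fun a b b' => by funext g; simp [cupFun_apply])
    (fun r a b => by funext g; simp [cupFun_apply])

@[simp] lemma cupCochain_apply (φ : Pairing A B C) {p q n : ℕ} (h : p + q = n)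
    (a : (Fin p → G) → A.V) (b : (Fin q → G) → B.V) :
    cupCochain φ h a b = cupFun φ h a b := rfl

lemma sum_fin_split {M : Type*} [AddCommMonoid M] {p q m : ℕ} (h : p + q = m) (F : Fin m → M) :
    ∑ j : Fin m, F j = ∑ j : Fin p, F ⟨j, by omega⟩ + ∑ j : Fin q, F ⟨p + j, by omega⟩ := by
  subst h
  exact Fin.sum_univ_add F

/-- **Leibniz rule** for the cup product of inhomogeneous cochains. -/
theorem dF_cupFun (φ : Pairing A B C) {p q n : ℕ} (h : p + q = n)
    (a : (Fin p → G) → A.V) (b : (Fin q → G) → B.V) :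
    dF C n (cupFun φ h a b) =
      cupFun φ (show (p + 1) + q = n + 1 by omega) (dF A p a) b +
        (-1 : k) ^ p • cupFun φ (show p + (q + 1) = n + 1 by omega) a (dF B q b) := by
  have h₁ : (p + 1) + q = n + 1 := by omega
  have h₂ : p + (q + 1) = n + 1 := by omega
  funext g
  rw [dF_apply, Pi.add_apply, Pi.smul_apply, cupFun_apply φ h₁, cupFun_apply φ h₂, dF_apply,
    dF_apply]
  -- split the sums
  rw [sum_fin_split h₂, Fin.sum_univ_castSucc (n := p)]
  simp only [map_add, map_sum, map_smul, LinearMap.add_apply, LinearMap.sum_apply,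
    LinearMap.smul_apply, Finset.smul_sum, smul_add]
  -- the leading term
  have e0 : C.ρ (g 0) (cupFun φ h a b fun i => g i.succ) =
      φ.toLin (A.ρ (tupleFst h₁ g 0) (a fun i => tupleFst h₁ g i.succ))
        (B.ρ (prodFst (p + 1) (by omega) g) (b (tupleSnd h₁ g))) := by
    rw [cupFun_apply, Pairing.ρ_apply, tupleFst_tail h h₁, tupleSnd_tail h h₁,
      prodFst_succ_tail (p := p) (by omega) g, map_mul, Module.End.mul_apply]
    rfl
  -- terms in the first block
  have e1 : ∀ j : Fin p, cupFun φ h a b (Fin.contractNth ⟨j, by omega⟩ (· * ·) g) =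
      φ.toLin (a (Fin.contractNth j.castSucc (· * ·) (tupleFst h₁ g)))
        (B.ρ (prodFst (p + 1) (by omega) g) (b (tupleSnd h₁ g))) := by
    intro j
    rw [cupFun_apply, tupleFst_contractNth_lt h h₁, tupleSnd_contractNth_lt h h₁,
      prodFst_contractNth_lt (by omega) g ⟨j, by omega⟩ (by simp)]
  -- terms in the second block
  have e2 : ∀ j : Fin (q + 1), cupFun φ h a b (Fin.contractNth ⟨p + j, by omega⟩ (· * ·) g) =
      φ.toLin (a (tupleFst h₂ g))
        (B.ρ (prodFst p (by omega) g) (b (Fin.contractNth j (· * ·) (tupleSnd h₂ g)))) := by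
    intro j
    rw [cupFun_apply, tupleFst_contractNth_ge h h₂, tupleSnd_contractNth_ge h h₂,
      prodFst_contractNth_ge (by omega) g ⟨p + j, by omega⟩ (by simp)]
  -- the two cancelling terms
  have e3 : φ.toLin (a (Fin.contractNth (Fin.last p) (· * ·) (tupleFst h₁ g)))
        (B.ρ (prodFst (p + 1) (by omega) g) (b (tupleSnd h₁ g))) =
      φ.toLin (a (tupleFst h₂ g)) (B.ρ (prodFst p (by omega) g)
        (B.ρ (tupleSnd h₂ g 0) (b fun i => tupleSnd h₂ g i.succ))) := by
    rw [contractNth_last_tupleFst h h₁ h₂, tupleSnd_succ_tail h₁ h₂,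
      prodFst_succ (p := p) (by omega) g, map_mul, Module.End.mul_apply]
    rfl
  simp only [e0, e1, e2, e3, Fin.val_castSucc, Fin.val_last]
  simp only [pow_add, pow_one, smul_smul, mul_assoc]
  module

end Fermat.Agent.CFT.Cup
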