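import Mathlib
import Fermat.Agent.CFT.Cup.Cochain

/-!
# Cup product on group cohomology (degrees `≥ 0`)

`cup φ h : Hᵖ(G, A) →ₗ[k] H^q(G, B) →ₗ[k] Hⁿ(G, C)` for an equivariant pairing `φ : A × B → C`
and `h : p + q = n`, characterised by `cup φ h (cls a) (cls b) = cls (a ∪ b)`.
-/

noncomputable section

universe u

namespace Fermat.Agent.CFT.Cup

open CategoryTheory groupCohomology

variable {k G : Type u} [CommRing k] [Group G] {A B C : Rep.{u} k G}

@[simp] lemma cupFun_zero_left (φ : Pairing A B C) {p q n : ℕ} (h : p + q = n)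
    (b : (Fin q → G) → B.V) : cupFun φ h (0 : (Fin p → G) → A.V) b = 0 := by
  funext g; simp [cupFun_apply]

@[simp] lemma cupFun_zero_right (φ : Pairing A B C) {p q n : ℕ} (h : p + q = n)
    (a : (Fin p → G) → A.V) : cupFun φ h a (0 : (Fin q → G) → B.V) = 0 := by
  funext g; simp [cupFun_apply]

lemma cupFun_add_left (φ : Pairing A B C) {p q n : ℕ} (h : p + q = n)
    (a a' : (Fin p → G) → A.V) (b : (Fin q → G) → B.V) :
    cupFun φ h (a + a') b = cupFun φ h a b + cupFun φ h a' b :=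
  (cupCochain φ h).map_add₂ a a' b

lemma cupFun_add_right (φ : Pairing A B C) {p q n : ℕ} (h : p + q = n)
    (a : (Fin p → G) → A.V) (b b' : (Fin q → G) → B.V) :
    cupFun φ h a (b + b') = cupFun φ h a b + cupFun φ h a b' :=
  (cupCochain φ h a).map_add b b'

lemma cupFun_smul_left (φ : Pairing A B C) {p q n : ℕ} (h : p + q = n) (r : k)
    (a : (Fin p → G) → A.V) (b : (Fin q → G) → B.V) :
    cupFun φ h (r • a) b = r • cupFun φ h a b :=
  (cupCochain φ h).map_smul₂ r a b

lemma cupFun_smul_right (φ : Pairing A B C) {p q n : ℕ} (h : p + q = n) (r : k)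
    (a : (Fin p → G) → A.V) (b : (Fin q → G) → B.V) :
    cupFun φ h a (r • b) = r • cupFun φ h a b :=
  (cupCochain φ h a).map_smul r b

/-- The cup product of two cocycles is a cocycle. -/
lemma cupFun_mem_Z (φ : Pairing A B C) {p q n : ℕ} (h : p + q = n)
    {a : (Fin p → G) → A.V} {b : (Fin q → G) → B.V} (ha : a ∈ Z A p) (hb : b ∈ Z B q) :
    cupFun φ h a b ∈ Z C n := by
  rw [mem_Z, dF_cupFun, mem_Z.1 ha, mem_Z.1 hb]
  simp

/-- The cup product as a bilinear map on cocycles. -/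
def cupZ (φ : Pairing A B C) {p q n : ℕ} (h : p + q = n) : Z A p →ₗ[k] Z B q →ₗ[k] Z C n :=
  LinearMap.mk₂ k (fun a b => ⟨cupFun φ h a.1 b.1, cupFun_mem_Z φ h a.2 b.2⟩)
    (fun a a' b => Subtype.ext (cupFun_add_left φ h a.1 a'.1 b.1))
    (fun r a b => Subtype.ext (cupFun_smul_left φ h r a.1 b.1))
    (fun a b b' => Subtype.ext (cupFun_add_right φ h a.1 b.1 b'.1))
    (fun r a b => Subtype.ext (cupFun_smul_right φ h r a.1 b.1))

@[simp] lemma cupZ_coe (φ : Pairing A B C) {p q n : ℕ} (h : p + q = n) (a : Z A p) (b : Z B q) :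
    (cupZ φ h a b : (Fin n → G) → C.V) = cupFun φ h a.1 b.1 := rfl

/-- The class of the cup product of two cocycles. -/
def cupZcls (φ : Pairing A B C) {p q n : ℕ} (h : p + q = n) :
    Z A p →ₗ[k] Z B q →ₗ[k] groupCohomology C n :=
  (cupZ φ h).compr₂ (cls C n)

lemma cupZcls_apply (φ : Pairing A B C) {p q n : ℕ} (h : p + q = n) (a : Z A p) (b : Z B q) :
    cupZcls φ h a b = cls C n (cupZ φ h a b) := rfl

/-- coboundary ∪ cocycle is a coboundary -/
lemma cupZcls_eq_zero_left (φ : Pairing A B C) {p q n : ℕ} (h : p + q = n) (a : Z A p) (b : Z B q)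
    (ha : cls A p a = 0) : cupZcls φ h a b = 0 := by
  rw [cupZcls_apply]
  cases p with
  | zero =>
    rw [cls_eq_zero_iff_zero] at ha
    subst ha
    simp
  | succ p' =>
    obtain ⟨m, rfl⟩ : ∃ m, n = m + 1 := ⟨p' + q, by omega⟩
    rw [cls_eq_zero_iff_succ] at ha ⊢
    obtain ⟨y, hy⟩ := ha
    refine ⟨cupFun φ (show p' + q = m by omega) y b.1, ?_⟩
    rw [dF_cupFun, mem_Z.1 b.2, hy]
    simp

/-- cocycle ∪ coboundary is a coboundary -/
lemma cupZcls_eq_zero_right (φ : Pairing A B C) {p q n : ℕ} (h : p + q = n) (a : Z A p) (b : Z B q)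
    (hb : cls B q b = 0) : cupZcls φ h a b = 0 := by
  rw [cupZcls_apply]
  cases q with
  | zero =>
    rw [cls_eq_zero_iff_zero] at hb
    subst hb
    simp
  | succ q' =>
    obtain ⟨m, rfl⟩ : ∃ m, n = m + 1 := ⟨p + q', by omega⟩
    rw [cls_eq_zero_iff_succ] at hb ⊢
    obtain ⟨y, hy⟩ := hb
    refine ⟨(-1 : k) ^ p • cupFun φ (show p + q' = m by omega) a.1 y, ?_⟩
    have hL := dF_cupFun φ (show p + q' = m by omega) a.1 y
    rw [mem_Z.1 a.2, hy] at hL
    simp only [cupFun_zero_left, zero_add] at hL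
    rw [dF, map_smul, ← dF, hL, smul_smul, ← pow_add, ← two_mul, pow_mul]
    simp

/-- The **cup product** on group cohomology. -/
def cup (φ : Pairing A B C) {p q n : ℕ} (h : p + q = n) :
    groupCohomology A p →ₗ[k] groupCohomology B q →ₗ[k] groupCohomology C n :=
  let eA := (cls A p).quotKerEquivOfSurjective (cls_surjective A p)
  let eB := (cls B q).quotKerEquivOfSurjective (cls_surjective B q)
  let f1 : (Z A p ⧸ LinearMap.ker (cls A p)) →ₗ[k] Z B q →ₗ[k] groupCohomology C n :=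
    (LinearMap.ker (cls A p)).liftQ (cupZcls φ h) (fun a ha => by
      rw [LinearMap.mem_ker] at ha ⊢
      exact LinearMap.ext fun b => cupZcls_eq_zero_left φ h a b ha)
  let f2 : (Z B q ⧸ LinearMap.ker (cls B q)) →ₗ[k]
      (Z A p ⧸ LinearMap.ker (cls A p)) →ₗ[k] groupCohomology C n :=
    (LinearMap.ker (cls B q)).liftQ f1.flip (fun b hb => by
      rw [LinearMap.mem_ker] at hb ⊢
      refine LinearMap.ext fun a' => ?_
      induction a' using Submodule.Quotient.induction_on with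
      | H a => exact cupZcls_eq_zero_right φ h a b hb)
  f2.flip.compl₁₂ eA.symm.toLinearMap eB.symm.toLinearMap

/-- The defining property of the cup product. -/
theorem cup_cls (φ : Pairing A B C) {p q n : ℕ} (h : p + q = n) (a : Z A p) (b : Z B q) :
    cup φ h (cls A p a) (cls B q b) = cls C n (cupZ φ h a b) := by
  have hA : ((cls A p).quotKerEquivOfSurjective (cls_surjective A p)).symm (cls A p a) =
      Submodule.Quotient.mk a := by
    rw [LinearEquiv.symm_apply_eq]; rfl
  have hB : ((cls B q).quotKerEquivOfSurjective (cls_surjective B q)).symm (cls B q b) =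
      Submodule.Quotient.mk b := by
    rw [LinearEquiv.symm_apply_eq]; rfl
  simp only [cup, LinearMap.compl₁₂_apply, LinearEquiv.coe_coe, hA, hB, LinearMap.flip_apply]
  rfl

/-- `cup` in terms of Mathlib's `π` and `cocyclesMk`. -/
theorem cup_π_mk (φ : Pairing A B C) {p q n : ℕ} (h : p + q = n)
    (a : (Fin p → G) → A.V) (ha : dF A p a = 0) (b : (Fin q → G) → B.V) (hb : dF B q b = 0) :
    cup φ h (π A p (cocyclesMk a ha)) (π B q (cocyclesMk b hb)) =
      π C n (cocyclesMk (cupFun φ h a b) (mem_Z.1 (cupFun_mem_Z φ h (mem_Z.2 ha) (mem_Z.2 hb)))) :=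
  cup_cls φ h ⟨a, mem_Z.2 ha⟩ ⟨b, mem_Z.2 hb⟩

end Fermat.Agent.CFT.Cup
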