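import Mathlib
import Fermat.Agent.CFT.Cup.Cohomology

/-!
# Functoriality of the cup product

The cup product is natural in the coefficients and compatible with `groupCohomology.map` along
an arbitrary group homomorphism (hence with restriction and inflation).
-/

noncomputable section

universe u

namespace Fermat.Agent.CFT.Cup

open CategoryTheory groupCohomology

variable {k G H : Type u} [CommRing k] [Group G] [Group H]

/-! ### The action of `groupCohomology.map` on classes -/

section mapZ

variable {A : Rep.{u} k H} {A' : Rep.{u} k G} (f : G →* H) (α : Rep.res f A ⟶ A')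

lemma cochainsMap_f_apply (n : ℕ) (a : (Fin n → H) → A.V) (g : Fin n → G) :
    ((cochainsMap f α).f n).hom a g = α.hom (a (f ∘ g)) := rfl

lemma dF_cochainsMap (n : ℕ) (a : (Fin n → H) → A.V) :
    dF A' n (((cochainsMap f α).f n).hom a) = ((cochainsMap f α).f (n + 1)).hom (dF A n a) := by
  have h := (cochainsMap f α).comm n (n + 1)
  rw [inhomogeneousCochains.d_def, inhomogeneousCochains.d_def] at h
  exact congr($(h).hom a)

/-- The map on cocycles induced by `f : G →* H` and `α : res f A ⟶ A'`. -/
def mapZ (n : ℕ) : Z A n →ₗ[k] Z A' n :=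
  LinearMap.restrict ((cochainsMap f α).f n).hom (p := Z A n) (q := Z A' n) (fun a ha => by
    rw [mem_Z] at ha ⊢
    rw [dF_cochainsMap, ha, map_zero])

@[simp] lemma mapZ_coe (n : ℕ) (a : Z A n) :
    (mapZ f α n a : (Fin n → G) → A'.V) = ((cochainsMap f α).f n).hom a.1 := rfl

lemma mapZ_apply (n : ℕ) (a : Z A n) (g : Fin n → G) :
    (mapZ f α n a).1 g = α.hom (a.1 (f ∘ g)) := rfl

/-- `groupCohomology.map` on classes. -/
theorem map_cls (n : ℕ) (a : Z A n) :
    groupCohomology.map f α n (cls A n a) = cls A' n (mapZ f α n a) := by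
  rw [cls_apply, π_map_apply, π_eq_cls]
  congr 1
  apply Subtype.ext
  rw [ofCocycles'_coe, mapZ_coe]
  have h := HomologicalComplex.cyclesMap_i (cochainsMap f α) n
  have h2 := congr($(h).hom (cocyclesMk a.1 (Z_prop a)))
  simp only [ModuleCat.hom_comp, LinearMap.comp_apply] at h2
  rw [iCocycles_mk] at h2
  exact h2

end mapZ

/-! ### Compatibility of the cup product with `map` -/

lemma map_partialProd' (f : G →* H) {n : ℕ} (g : Fin n → G) (i : Fin (n + 1)) :
    f (Fin.partialProd g i) = Fin.partialProd (f ∘ g) i := by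
  simp only [Fin.partialProd, map_list_prod, List.map_take, List.map_ofFn]

lemma prodFst_comp (f : G →* H) {n : ℕ} (p : ℕ) (hp : p ≤ n) (g : Fin n → G) :
    prodFst p hp (f ∘ g) = f (prodFst p hp g) :=
  (map_partialProd' f g _).symm

variable {A B C : Rep.{u} k H} {A' B' C' : Rep.{u} k G}

/-- cochain-level compatibility of the cup product with a change of group and coefficients -/
lemma cupFun_cochainsMap (f : G →* H) (φ : Pairing A B C) (φ' : Pairing A' B' C')
    (α : Rep.res f A ⟶ A') (β : Rep.res f B ⟶ B') (γ : Rep.res f C ⟶ C')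
    (hφ : ∀ a b, φ'.toLin (α.hom a) (β.hom b) = γ.hom (φ.toLin a b))
    {p q n : ℕ} (h : p + q = n) (a : (Fin p → H) → A.V) (b : (Fin q → H) → B.V) :
    cupFun φ' h (((cochainsMap f α).f p).hom a) (((cochainsMap f β).f q).hom b) =
      ((cochainsMap f γ).f n).hom (cupFun φ h a b) := by
  funext g
  rw [cochainsMap_f_apply, cupFun_apply, cupFun_apply, cochainsMap_f_apply, cochainsMap_f_apply,
    ← hφ, prodFst_comp]
  congr 1
  exact (Rep.hom_comm_apply β (prodFst p (by omega) g) _).symm

/-- The cup product commutes with `groupCohomology.map` along any group homomorphism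
(in particular with restriction and inflation) and any compatible maps of coefficients. -/
theorem cup_map (f : G →* H) (φ : Pairing A B C) (φ' : Pairing A' B' C')
    (α : Rep.res f A ⟶ A') (β : Rep.res f B ⟶ B') (γ : Rep.res f C ⟶ C')
    (hφ : ∀ a b, φ'.toLin (α.hom a) (β.hom b) = γ.hom (φ.toLin a b))
    {p q n : ℕ} (h : p + q = n) (x : groupCohomology A p) (y : groupCohomology B q) :
    cup φ' h (groupCohomology.map f α p x) (groupCohomology.map f β q y) =
      groupCohomology.map f γ n (cup φ h x y) := by
  induction x using cls_induction_on with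
  | h a =>
  induction y using cls_induction_on with
  | h b =>
  rw [map_cls, map_cls, cup_cls, cup_cls, map_cls]
  congr 1
  apply Subtype.ext
  exact cupFun_cochainsMap f φ φ' α β γ hφ h a.1 b.1

/-- Naturality of the cup product in the coefficients. -/
theorem cup_map_id {A B C A' B' C' : Rep.{u} k G} (φ : Pairing A B C) (φ' : Pairing A' B' C')
    (α : A ⟶ A') (β : B ⟶ B') (γ : C ⟶ C')
    (hφ : ∀ a b, φ'.toLin (α.hom a) (β.hom b) = γ.hom (φ.toLin a b))
    {p q n : ℕ} (h : p + q = n) (x : groupCohomology A p) (y : groupCohomology B q) :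
    cup φ' h (groupCohomology.map (MonoidHom.id G) α p x)
        (groupCohomology.map (MonoidHom.id G) β q y) =
      groupCohomology.map (MonoidHom.id G) γ n (cup φ h x y) :=
  cup_map (MonoidHom.id G) φ φ' α β γ hφ h x y

/-- The restriction of a pairing along a group homomorphism. -/
def Pairing.res (f : G →* H) (φ : Pairing A B C) :
    Pairing (Rep.res f A) (Rep.res f B) (Rep.res f C) where
  toLin := φ.toLin
  map_ρ g a b := φ.map_ρ (f g) a b

/-- The cup product commutes with restriction/inflation `map f (𝟙 _)`. -/
theorem cup_map_res (f : G →* H) (φ : Pairing A B C)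
    {p q n : ℕ} (h : p + q = n) (x : groupCohomology A p) (y : groupCohomology B q) :
    cup (φ.res f) h (groupCohomology.map f (𝟙 (Rep.res f A)) p x)
        (groupCohomology.map f (𝟙 (Rep.res f B)) q y) =
      groupCohomology.map f (𝟙 (Rep.res f C)) n (cup φ h x y) :=
  cup_map f φ (φ.res f) (𝟙 _) (𝟙 _) (𝟙 _) (fun _ _ => rfl) h x y

end Fermat.Agent.CFT.Cup
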