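import Mathlib
import Fermat.Agent.CFT.Cup.Functorial

/-!
# Compatibility of the cup product with connecting homomorphisms

* `δ_cls`: elementwise description of Mathlib's `groupCohomology.δ` on classes `cls`;
* `δ_cup_left`:  `δ (x'' ∪ y) = δ x'' ∪ y`;
* `δ_cup_right`: `δ (x ∪ y'') = (-1)ᵖ • (x ∪ δ y'')`.
-/

noncomputable section

universe u

namespace Fermat.Agent.CFT.Cup

open CategoryTheory groupCohomology

variable {k G : Type u} [CommRing k] [Group G]

section deltaCls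

variable {X : ShortComplex (Rep.{u} k G)} (hX : X.ShortExact)

include hX

lemma shortExact_f_injective : Function.Injective X.f.hom :=
  (Rep.mono_iff_injective X.f).1 hX.mono_f

lemma shortExact_g_surjective : Function.Surjective X.g.hom :=
  (Rep.epi_iff_surjective X.g).1 hX.epi_g

lemma shortExact_exact (v : X.X₂.V) (hv : X.g.hom v = 0) : ∃ w : X.X₁.V, X.f.hom w = v := by
  have h1 : LinearMap.range X.f.hom.toLinearMap = LinearMap.ker X.g.hom.toLinearMap :=
    (hX.exact.map (forget₂ (Rep k G) (ModuleCat k))).moduleCat_range_eq_ker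
  have : v ∈ LinearMap.ker X.g.hom.toLinearMap := hv
  rw [← h1] at this
  exact this

omit hX in
lemma dF_comp_hom {A A' : Rep.{u} k G} (α : A ⟶ A') (n : ℕ) (a : (Fin n → G) → A.V) :
    dF A' n (fun g => α.hom (a g)) = fun g => α.hom (dF A n a g) :=
  dF_cochainsMap (MonoidHom.id G) α n a

/-- A cochain of `X₁` whose image in `X₂` is a coboundary is a cocycle. -/
lemma mem_Z_of_comp_eq_dF (p : ℕ) (a : (Fin p → G) → X.X₂.V) (a' : (Fin (p + 1) → G) → X.X₁.V)
    (ha' : ∀ g, X.f.hom (a' g) = dF X.X₂ p a g) : a' ∈ Z X.X₁ (p + 1) := by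
  rw [mem_Z]
  funext g
  apply shortExact_f_injective hX
  have h1 := congrFun (dF_comp_hom X.f (p + 1) a') g
  have h2 : (fun g => X.f.hom (a' g)) = dF X.X₂ p a := funext ha'
  rw [h2, dF_dF] at h1
  rw [← h1]
  simp

/-- Elementwise description of the connecting homomorphism on classes. -/
theorem δ_cls (p : ℕ) (z : Z X.X₃ p) (a : (Fin p → G) → X.X₂.V)
    (ha : ∀ g, X.g.hom (a g) = z.1 g) (a' : (Fin (p + 1) → G) → X.X₁.V)
    (ha' : ∀ g, X.f.hom (a' g) = dF X.X₂ p a g) :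
    δ hX p (p + 1) rfl (cls X.X₃ p z) =
      cls X.X₁ (p + 1) ⟨a', mem_Z_of_comp_eq_dF hX p a a' ha'⟩ := by
  have hz : (inhomogeneousCochains X.X₃).d p (p + 1) z.1 = 0 := by
    rw [inhomogeneousCochains.d_def]; exact Z_prop z
  have hy : (cochainsMap (MonoidHom.id G) X.g).f p a = z.1 := funext ha
  have hx : X.f.hom ∘ a' = (inhomogeneousCochains X.X₂).d p (p + 1) a := by
    rw [inhomogeneousCochains.d_def]; exact funext ha'
  exact δ_apply hX rfl z.1 hz a hy a' hx

/-- Every cocycle of `X₃` admits the lifts needed to compute `δ`. -/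
lemma exists_lifts (p : ℕ) (z : Z X.X₃ p) :
    ∃ (a : (Fin p → G) → X.X₂.V) (a' : (Fin (p + 1) → G) → X.X₁.V),
      (∀ g, X.g.hom (a g) = z.1 g) ∧ (∀ g, X.f.hom (a' g) = dF X.X₂ p a g) := by
  have hs := shortExact_g_surjective hX
  choose s hs' using hs
  let a : (Fin p → G) → X.X₂.V := fun g => s (z.1 g)
  have ha : ∀ g, X.g.hom (a g) = z.1 g := fun g => hs' _
  have hker : ∀ g, X.g.hom (dF X.X₂ p a g) = 0 := by
    intro g
    have h1 := congrFun (dF_comp_hom X.g p a) g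
    have h2 : (fun g => X.g.hom (a g)) = z.1 := funext ha
    rw [h2, mem_Z.1 z.2] at h1
    rw [← h1]
    rfl
  choose a' ha' using fun g => shortExact_exact hX (dF X.X₂ p a g) (hker g)
  exact ⟨a, a', ha, ha'⟩

end deltaCls

/-! ### `δ` and cup products: the left variable -/

section left

variable {X Y : ShortComplex (Rep.{u} k G)} (hX : X.ShortExact) (hY : Y.ShortExact)
  {B : Rep.{u} k G}
  (φ₁ : Pairing X.X₁ B Y.X₁) (φ₂ : Pairing X.X₂ B Y.X₂) (φ₃ : Pairing X.X₃ B Y.X₃)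

/-- `δ (x'' ∪ y) = δ x'' ∪ y`. -/
theorem δ_cup_left
    (h12 : ∀ a b, Y.f.hom (φ₁.toLin a b) = φ₂.toLin (X.f.hom a) b)
    (h23 : ∀ a b, Y.g.hom (φ₂.toLin a b) = φ₃.toLin (X.g.hom a) b)
    {p q n : ℕ} (h : p + q = n) (x : groupCohomology X.X₃ p) (y : groupCohomology B q) :
    δ hY n (n + 1) rfl (cup φ₃ h x y) =
      cup φ₁ (show (p + 1) + q = n + 1 by omega) (δ hX p (p + 1) rfl x) y := by
  induction x using cls_induction_on with
  | h z =>
  induction y using cls_induction_on with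
  | h b =>
  obtain ⟨a, a', ha, ha'⟩ := exists_lifts hX p z
  rw [δ_cls hX p z a ha a' ha', cup_cls, cup_cls]
  have h₁ : (p + 1) + q = n + 1 := by omega
  refine δ_cls hY n (cupZ φ₃ h z b) (cupFun φ₂ h a b.1) ?_ (cupFun φ₁ h₁ a' b.1) ?_
  · intro g
    rw [cupFun_apply, h23, ha]
    rfl
  · intro g
    rw [dF_cupFun, mem_Z.1 b.2, cupFun_zero_right, smul_zero, add_zero, cupFun_apply, h12, ha']
    rfl

end left

/-! ### `δ` and cup products: the right variable -/

section right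

variable {X Y : ShortComplex (Rep.{u} k G)} (hX : X.ShortExact) (hY : Y.ShortExact)
  {A : Rep.{u} k G}
  (ψ₁ : Pairing A X.X₁ Y.X₁) (ψ₂ : Pairing A X.X₂ Y.X₂) (ψ₃ : Pairing A X.X₃ Y.X₃)

/-- `δ (x ∪ y'') = (-1)ᵖ • (x ∪ δ y'')`. -/
theorem δ_cup_right
    (h12 : ∀ a b, Y.f.hom (ψ₁.toLin a b) = ψ₂.toLin a (X.f.hom b))
    (h23 : ∀ a b, Y.g.hom (ψ₂.toLin a b) = ψ₃.toLin a (X.g.hom b))
    {p q n : ℕ} (h : p + q = n) (x : groupCohomology A p) (y : groupCohomology X.X₃ q) :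
    δ hY n (n + 1) rfl (cup ψ₃ h x y) =
      (-1 : k) ^ p • cup ψ₁ (show p + (q + 1) = n + 1 by omega) x (δ hX q (q + 1) rfl y) := by
  induction x using cls_induction_on with
  | h a =>
  induction y using cls_induction_on with
  | h z =>
  obtain ⟨b, b', hb, hb'⟩ := exists_lifts hX q z
  rw [δ_cls hX q z b hb b' hb', cup_cls, cup_cls, ← map_smul]
  have h₂ : p + (q + 1) = n + 1 := by omega
  have key := δ_cls hY n (cupZ ψ₃ h a z) (cupFun ψ₂ h a.1 b) ?_
    ((-1 : k) ^ p • cupFun ψ₁ h₂ a.1 b') ?_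
  · rw [key]
    congr 1
  · intro g
    rw [cupFun_apply, h23, Rep.hom_comm_apply X.g, hb]
    rfl
  · intro g
    rw [dF_cupFun, mem_Z.1 a.2, cupFun_zero_left, zero_add, Pi.smul_apply, Pi.smul_apply,
      map_smul, cupFun_apply, cupFun_apply, h12, Rep.hom_comm_apply X.f, hb']

end right

end Fermat.Agent.CFT.Cup
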