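import Mathlib
import Fermat.Agent.CFT.Cup.Delta

/-!
# The connecting homomorphisms are adjoint for the cup product

For short exact sequences `0 → A' → A → A'' → 0`, `0 → B' → B → B'' → 0` and pairings
`φ : A × B → C`, `φ' : A' × B'' → C`, `φ'' : A'' × B' → C` which are compatible,
`δ x'' ∪ y'' = (-1)ᵖ⁺¹ • (x'' ∪ δ y'')` for `x'' ∈ Hᵖ(A'')`, `y'' ∈ H^q(B'')`.
This is the basic tool of every dimension-shifting proof of a duality statement.
-/

noncomputable section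

universe u

namespace Fermat.Agent.CFT.Cup

open CategoryTheory groupCohomology

variable {k G : Type u} [CommRing k] [Group G]

variable {X Y : ShortComplex (Rep.{u} k G)} (hX : X.ShortExact) (hY : Y.ShortExact)
  {C : Rep.{u} k G}
  (φ : Pairing X.X₂ Y.X₂ C) (φ' : Pairing X.X₁ Y.X₃ C) (φ'' : Pairing X.X₃ Y.X₁ C)

/-- cochain-level identity behind `δ_cup_δ` -/
lemma δ_cup_δ_aux
    (h1 : ∀ a' b, φ.toLin (X.f.hom a') b = φ'.toLin a' (Y.g.hom b))
    (h2 : ∀ a b', φ.toLin a (Y.f.hom b') = φ''.toLin (X.g.hom a) b')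
    {p q n : ℕ} (h : p + q = n)
    (a : (Fin p → G) → X.X₂.V) (a' : (Fin (p + 1) → G) → X.X₁.V)
    (ha' : ∀ g, X.f.hom (a' g) = dF X.X₂ p a g)
    (b : (Fin q → G) → Y.X₂.V) (b' : (Fin (q + 1) → G) → Y.X₁.V)
    (hb' : ∀ g, Y.f.hom (b' g) = dF Y.X₂ q b g) :
    dF C n (cupFun φ h a b) =
      cupFun φ' (show (p + 1) + q = n + 1 by omega) a' (fun g => Y.g.hom (b g)) +
        (-1 : k) ^ p • cupFun φ'' (show p + (q + 1) = n + 1 by omega)
          (fun g => X.g.hom (a g)) b' := by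
  rw [dF_cupFun]
  congr 1
  · funext g
    rw [cupFun_apply, cupFun_apply, ← ha', h1, Rep.hom_comm_apply Y.g]
  · congr 1
    funext g
    rw [cupFun_apply, cupFun_apply, ← hb', ← Rep.hom_comm_apply Y.f, h2]

/-- `δ x'' ∪ y'' = (-1)ᵖ⁺¹ • (x'' ∪ δ y'')`. -/
theorem δ_cup_δ
    (h1 : ∀ a' b, φ.toLin (X.f.hom a') b = φ'.toLin a' (Y.g.hom b))
    (h2 : ∀ a b', φ.toLin a (Y.f.hom b') = φ''.toLin (X.g.hom a) b')
    {p q n : ℕ} (h : p + q = n) (x : groupCohomology X.X₃ p) (y : groupCohomology Y.X₃ q) :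
    cup φ' (show (p + 1) + q = n + 1 by omega) (δ hX p (p + 1) rfl x) y =
      (-1 : k) ^ (p + 1) •
        cup φ'' (show p + (q + 1) = n + 1 by omega) x (δ hY q (q + 1) rfl y) := by
  induction x using cls_induction_on with
  | h z =>
  induction y using cls_induction_on with
  | h w =>
  obtain ⟨a, a', ha, ha'⟩ := exists_lifts hX p z
  obtain ⟨b, b', hb, hb'⟩ := exists_lifts hY q w
  rw [δ_cls hX p z a ha a' ha', δ_cls hY q w b hb b' hb', cup_cls, cup_cls, ← map_smul,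
    ← sub_eq_zero, ← map_sub, cls_eq_zero_iff_succ]
  refine ⟨cupFun φ h a b, ?_⟩
  rw [δ_cup_δ_aux φ φ' φ'' h1 h2 h a a' ha' b b' hb']
  have e1 : (fun g => Y.g.hom (b g)) = w.1 := funext hb
  have e2 : (fun g => X.g.hom (a g)) = z.1 := funext ha
  rw [e1, e2]
  simp only [Submodule.coe_sub, Submodule.coe_smul, cupZ_coe, pow_succ]
  module

end Fermat.Agent.CFT.Cup
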