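import Mathlib
import Fermat.Agent.CFT.Cup.Delta

/-!
# Cup products with norms vanish in positive degree

For a finite group `G`, `a : A` and a cocycle `b` of positive degree, the cochain `N a ∪ b` is
an explicit coboundary.  Hence the cup product `H⁰(G, A) × H^q(G, B) → H^q(G, C)`, `q ≥ 1`,
factors through the Tate group `Ĥ⁰(G, A) = A^G / N A`.
-/

noncomputable section

universe u

namespace Fermat.Agent.CFT.Cup

open CategoryTheory groupCohomology

variable {k G : Type u} [CommRing k] [Group G]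

/-! ### Degree `0` on the left -/

lemma cupFun_zero_deg (A B C : Rep.{u} k G) (φ : Pairing A B C) {q n : ℕ} (h : 0 + q = n)
    (a : (Fin 0 → G) → A.V) (b : (Fin q → G) → B.V) (g : Fin n → G) :
    cupFun φ h a b g = φ.toLin (a default) (b fun j : Fin q => g ⟨(j : ℕ), by omega⟩) := by
  have h0 : tupleFst h g = default := Subsingleton.elim _ _
  have h1 : tupleSnd h g = fun j : Fin q => g ⟨(j : ℕ), by omega⟩ := by
    funext j; simp [tupleSnd]
  have h2 : prodFst 0 (by omega) g = 1 := Fin.partialProd_zero g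
  rw [cupFun_apply, h0, h1, h2, map_one, Module.End.one_apply]

lemma contractNth_succ_cons {α : Type*} (op : α → α → α) {n : ℕ} (s : α) (g : Fin (n + 1) → α)
    (j : Fin (n + 1)) :
    Fin.contractNth j.succ op (Fin.cons s g : Fin (n + 2) → α) =
      Fin.cons s (Fin.contractNth j op g) := by
  funext k
  refine Fin.cases ?_ (fun k' => ?_) k
  · simp [Fin.contractNth]
  · simp only [Fin.contractNth, Fin.val_succ, add_lt_add_iff_right, add_left_inj, Fin.cons_succ,
      Fin.castSucc_succ]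

lemma contractNth_zero_cons {α : Type*} (op : α → α → α) {n : ℕ} (s : α) (g : Fin (n + 1) → α) :
    Fin.contractNth 0 op (Fin.cons s g : Fin (n + 2) → α) =
      Fin.cons (op s (g 0)) (fun i => g i.succ) := by
  funext k
  refine Fin.cases ?_ (fun k' => ?_) k
  · simp [Fin.contractNth]
  · simp [Fin.contractNth]

variable [Fintype G] {A B C : Rep.{u} k G}

/-- The contracting cochain: `c(g) = ∑ₛ s • φ(a, b(s⁻¹, g))`. -/
def normHomotopy (φ : Pairing A B C) (a : A.V) {q : ℕ} (b : (Fin (q + 1) → G) → B.V) :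
    (Fin q → G) → C.V :=
  fun g => ∑ s : G, C.ρ s (φ.toLin a (b (Fin.cons s⁻¹ g)))

/-- `d c = N a ∪ b` for a cocycle `b` of positive degree. -/
theorem dF_normHomotopy (φ : Pairing A B C) (a : A.V) {q : ℕ} (b : (Fin (q + 1) → G) → B.V)
    (hb : dF B (q + 1) b = 0) (g : Fin (q + 1) → G) :
    dF C q (normHomotopy φ a b) g = φ.toLin (∑ s : G, A.ρ s a) (b g) := by
  -- the cocycle identity at `(s⁻¹, g)`
  have key : ∀ s : G, ∑ j : Fin (q + 1), (-1 : k) ^ ((j : ℕ) + 1) •
      b (Fin.cons s⁻¹ (Fin.contractNth j (· * ·) g)) =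
      B.ρ s⁻¹ (b g) - b (Fin.cons (s⁻¹ * g 0) (fun i => g i.succ)) := by
    intro s
    have h := congrFun hb (Fin.cons s⁻¹ g)
    rw [dF_apply, Fin.sum_univ_succ] at h
    simp only [Fin.cons_zero, Fin.cons_succ, Fin.val_zero, zero_add, pow_one, neg_smul, one_smul,
      Fin.val_succ, contractNth_succ_cons, contractNth_zero_cons, Pi.zero_apply] at h
    have h' : ∑ j : Fin (q + 1), (-1 : k) ^ ((j : ℕ) + 1 + 1) •
        b (Fin.cons s⁻¹ (Fin.contractNth j (· * ·) g)) =
        -(∑ j : Fin (q + 1), (-1 : k) ^ ((j : ℕ) + 1) •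
          b (Fin.cons s⁻¹ (Fin.contractNth j (· * ·) g))) := by
      rw [← Finset.sum_neg_distrib]
      refine Finset.sum_congr rfl fun j _ => ?_
      rw [pow_succ, mul_neg_one, neg_smul]
    rw [h'] at h
    calc _ = (B.ρ s⁻¹ (b g) - b (Fin.cons (s⁻¹ * g 0) (fun i => g i.succ))) -
          (B.ρ s⁻¹ (b g) + (-b (Fin.cons (s⁻¹ * g 0) (fun i => g i.succ)) +
            -(∑ j : Fin (q + 1), (-1 : k) ^ ((j : ℕ) + 1) •
              b (Fin.cons s⁻¹ (Fin.contractNth j (· * ·) g))))) := by abel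
      _ = _ := by rw [h, sub_zero]
  rw [dF_apply]
  -- the sum over `j`
  have e1 : ∑ j : Fin (q + 1), (-1 : k) ^ ((j : ℕ) + 1) •
      normHomotopy φ a b (Fin.contractNth j (· * ·) g) =
      ∑ s : G, C.ρ s (φ.toLin a (B.ρ s⁻¹ (b g) - b (Fin.cons (s⁻¹ * g 0) (fun i => g i.succ)))) := by
    simp only [normHomotopy, Finset.smul_sum]
    rw [Finset.sum_comm]
    refine Finset.sum_congr rfl fun s _ => ?_
    rw [← key s]
    simp only [map_sum, map_smul]
  -- the leading term
  have e2 : C.ρ (g 0) (normHomotopy φ a b fun i => g i.succ) =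
      ∑ s : G, C.ρ s (φ.toLin a (b (Fin.cons (s⁻¹ * g 0) (fun i => g i.succ)))) := by
    simp only [normHomotopy, map_sum]
    refine Fintype.sum_equiv (Equiv.mulLeft (g 0)) _ _ fun s => ?_
    simp only [Equiv.coe_mulLeft, mul_inv_rev, inv_mul_cancel_right, map_mul,
      Module.End.mul_apply]
  rw [e1, e2, ← Finset.sum_add_distrib, map_sum, LinearMap.sum_apply]
  refine Finset.sum_congr rfl fun s _ => ?_
  rw [map_sub, map_sub, add_sub_cancel, Pairing.ρ_apply, ← Module.End.mul_apply, ← map_mul,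
    mul_inv_cancel, map_one, Module.End.one_apply]

/-- The norm of `a`, as a `0`-cocycle. -/
def normCocycle (A : Rep.{u} k G) (a : A.V) : Z A 0 :=
  ⟨fun _ => ∑ s : G, A.ρ s a, by
    rw [mem_Z]
    funext g
    rw [dF_apply]
    simp only [Fin.sum_univ_succ, Finset.univ_eq_empty, Finset.sum_empty, Fin.val_zero, zero_add,
      pow_one, neg_smul, one_smul, add_zero, Pi.zero_apply, map_sum]
    rw [add_neg_eq_zero]
    refine Fintype.sum_equiv (Equiv.mulLeft (g 0)) _ _ fun s => ?_
    simp only [Equiv.coe_mulLeft, map_mul, Module.End.mul_apply]⟩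

/-- **`N a ∪ y = 0`** for `y` of positive degree. -/
theorem cup_normCocycle_left (φ : Pairing A B C) (a : A.V) {q n : ℕ} (h : 0 + (q + 1) = n)
    (y : groupCohomology B (q + 1)) :
    cup φ h (cls A 0 (normCocycle A a)) y = 0 := by
  induction y using cls_induction_on with
  | h b =>
  obtain rfl : n = q + 1 := by omega
  rw [cup_cls, cls_eq_zero_iff_succ]
  refine ⟨normHomotopy φ a b.1, ?_⟩
  funext g
  rw [dF_normHomotopy φ a b.1 (mem_Z.1 b.2) g, cupZ_coe, cupFun_zero_deg]
  rfl

end Fermat.Agent.CFT.Cup
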