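import Mathlib
import Fermat.Agent.CFT.Cup.Norm

/-!
# Cup products with norms vanish in positive degree: the right variable

For a finite group `G`, a cocycle `a` of positive degree and `b : B`, the cochain `a ∪ N b` is an
explicit coboundary.
-/

noncomputable section

universe u

namespace Fermat.Agent.CFT.Cup

open CategoryTheory groupCohomology

variable {k G : Type u} [CommRing k] [Group G]

/-! ### Tuple lemmas for `Fin.snoc` -/

section snoc

variable {α : Type*} (op : α → α → α) {n : ℕ}

lemma contractNth_castSucc_castSucc_snoc (g : Fin (n + 1) → α) (t : α) (j : Fin n) :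
    Fin.contractNth j.castSucc.castSucc op (Fin.snoc g t : Fin (n + 2) → α) =
      Fin.snoc (Fin.contractNth j.castSucc op g) t := by
  funext k
  refine Fin.lastCases ?_ (fun k' => ?_) k
  · have : ¬ (n < (j : ℕ)) := by omega
    have h2 : (n : ℕ) ≠ j := by omega
    simp [Fin.contractNth, this, h2]
  · rw [Fin.snoc_castSucc]
    simp only [Fin.contractNth, Fin.val_castSucc]
    have e1 : (Fin.snoc g t : Fin (n + 2) → α) k'.castSucc.castSucc = g k'.castSucc :=
      Fin.snoc_castSucc (α := fun _ => α) t g k'.castSucc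
    have e2 : (Fin.snoc g t : Fin (n + 2) → α) k'.castSucc.succ = g k'.succ := by
      rw [← Fin.castSucc_succ]; exact Fin.snoc_castSucc (α := fun _ => α) t g k'.succ
    rw [e1, e2]

lemma contractNth_castSucc_last_snoc (g : Fin (n + 1) → α) (t : α) :
    Fin.contractNth (Fin.last n).castSucc op (Fin.snoc g t : Fin (n + 2) → α) =
      Fin.snoc (Fin.init g) (op (g (Fin.last n)) t) := by
  funext k
  refine Fin.lastCases ?_ (fun k' => ?_) k
  · have e1 : (Fin.snoc g t : Fin (n + 2) → α) (Fin.last n).castSucc = g (Fin.last n) :=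
      Fin.snoc_castSucc (α := fun _ => α) t g (Fin.last n)
    have e2 : (Fin.snoc g t : Fin (n + 2) → α) (Fin.last n).succ = t := by
      rw [Fin.succ_last]; exact Fin.snoc_last (α := fun _ => α) t g
    simp [Fin.contractNth, e1]
  · rw [Fin.snoc_castSucc]
    have hlt : ((k'.castSucc : Fin (n + 1)) : ℕ) < n := k'.2
    have e1 : (Fin.snoc g t : Fin (n + 2) → α) k'.castSucc.castSucc = g k'.castSucc :=
      Fin.snoc_castSucc (α := fun _ => α) t g k'.castSucc
    simp [Fin.contractNth, e1, Fin.init]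

lemma contractNth_last_snoc (g : Fin (n + 1) → α) (t : α) :
    Fin.contractNth (Fin.last (n + 1)) op (Fin.snoc g t : Fin (n + 2) → α) = g := by
  funext k
  have hlt : (k : ℕ) < n + 1 := k.2
  have e1 : (Fin.snoc g t : Fin (n + 2) → α) k.castSucc = g k :=
    Fin.snoc_castSucc (α := fun _ => α) t g k
  simp [Fin.contractNth, hlt, e1]

lemma contractNth_last_eq_init (g : Fin (n + 1) → α) :
    Fin.contractNth (Fin.last n) op g = Fin.init g := by
  funext k
  have hlt : (k : ℕ) < n := k.2
  simp [Fin.contractNth, hlt, Fin.init]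

lemma tail_snoc' (g : Fin (n + 1) → α) (t : α) :
    (fun i : Fin (n + 1) => (Fin.snoc g t : Fin (n + 2) → α) i.succ) =
      Fin.snoc (fun i : Fin n => g i.succ) t := by
  funext k
  refine Fin.lastCases ?_ (fun k' => ?_) k
  · rw [Fin.succ_last, Fin.snoc_last, Fin.snoc_last]
  · rw [Fin.snoc_castSucc, ← Fin.castSucc_succ]
    exact Fin.snoc_castSucc (α := fun _ => α) t g k'.succ

end snoc

/-- The product of all entries of a tuple. -/
def prodAll {n : ℕ} (g : Fin n → G) : G := Fin.partialProd g (Fin.last n)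

lemma prodAll_tail {n : ℕ} (g : Fin (n + 1) → G) :
    prodAll g = g 0 * prodAll (fun i => g i.succ) := by
  unfold prodAll
  rw [← Fin.succ_last, Fin.partialProd_succ']
  rfl

lemma prodAll_init {n : ℕ} (g : Fin (n + 1) → G) :
    prodAll g = prodAll (Fin.init g) * g (Fin.last n) := by
  unfold prodAll
  rw [← Fin.succ_last, Fin.partialProd_succ, Fin.partialProd_init]

lemma prodAll_contractNth {n : ℕ} (g : Fin (n + 1) → G) (j : Fin n) :
    prodAll (Fin.contractNth j.castSucc (· * ·) g) = prodAll g := by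
  unfold prodAll
  rw [Fin.partialProd_contractNth, Function.comp_apply]
  congr 1
  rw [Fin.succAbove_of_lt_succ]
  · exact Fin.succ_last n
  · simp only [Fin.lt_def, Fin.val_last, Fin.val_succ, Fin.val_castSucc]
    omega

variable [Fintype G] {A B C : Rep.{u} k G}

/-- The contracting cochain: `c(g) = ∑ₜ φ(a(g, t), (g₁⋯g_p t) • b)`. -/
def normHomotopyR (φ : Pairing A B C) {p : ℕ} (a : (Fin (p + 1) → G) → A.V) (b : B.V) :
    (Fin p → G) → C.V :=
  fun g => ∑ t : G, φ.toLin (a (Fin.snoc g t)) (B.ρ (prodAll g * t) b)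

/-- `d c = (-1)ᵖ⁺¹ • (a ∪ N b)` for a cocycle `a` of positive degree. -/
theorem dF_normHomotopyR (φ : Pairing A B C) {p : ℕ} (a : (Fin (p + 1) → G) → A.V)
    (ha : dF A (p + 1) a = 0) (b : B.V) (g : Fin (p + 1) → G) :
    dF C p (normHomotopyR φ a b) g =
      (-1 : k) ^ (p + 1) • φ.toLin (a g) (∑ s : G, B.ρ s b) := by
  -- the cocycle identity at `(g, t)`
  have key : ∀ t : G, A.ρ (g 0) (a (Fin.snoc (fun i => g i.succ) t)) +
      (∑ j : Fin p, (-1 : k) ^ ((j : ℕ) + 1) •
        a (Fin.snoc (Fin.contractNth j.castSucc (· * ·) g) t) +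
      (-1 : k) ^ (p + 1) • a (Fin.snoc (Fin.init g) (g (Fin.last p) * t))) =
      (-1 : k) ^ (p + 1) • a g := by
    intro t
    have h := congrFun ha (Fin.snoc g t)
    rw [dF_apply, Fin.sum_univ_castSucc, Fin.sum_univ_castSucc] at h
    simp only [contractNth_castSucc_castSucc_snoc, contractNth_castSucc_last_snoc,
      contractNth_last_snoc, Fin.val_castSucc, Fin.val_last, tail_snoc', Pi.zero_apply] at h
    have h0 : (Fin.snoc g t : Fin (p + 2) → G) 0 = g 0 :=
      Fin.snoc_castSucc (α := fun _ => G) t g 0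
    rw [h0] at h
    have e : (-1 : k) ^ (p + 1 + 1) • a g = -((-1 : k) ^ (p + 1) • a g) := by
      rw [pow_succ, mul_neg_one, neg_smul]
    rw [e] at h
    rw [← sub_eq_zero, ← h]
    abel
  rw [dF_apply, Fin.sum_univ_castSucc]
  simp only [Fin.val_castSucc, Fin.val_last, contractNth_last_eq_init]
  -- rewrite the three kinds of terms as sums over `t`
  have e0 : C.ρ (g 0) (normHomotopyR φ a b fun i => g i.succ) =
      ∑ t : G, φ.toLin (A.ρ (g 0) (a (Fin.snoc (fun i => g i.succ) t)))
        (B.ρ (prodAll g * t) b) := by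
    simp only [normHomotopyR, map_sum, Pairing.ρ_apply]
    refine Finset.sum_congr rfl fun t _ => ?_
    rw [← Module.End.mul_apply, ← map_mul, prodAll_tail g, mul_assoc]
  have e1 : ∀ j : Fin p, normHomotopyR φ a b (Fin.contractNth j.castSucc (· * ·) g) =
      ∑ t : G, φ.toLin (a (Fin.snoc (Fin.contractNth j.castSucc (· * ·) g) t))
        (B.ρ (prodAll g * t) b) := by
    intro j
    simp only [normHomotopyR, prodAll_contractNth]
  have e2 : normHomotopyR φ a b (Fin.init g) =
      ∑ t : G, φ.toLin (a (Fin.snoc (Fin.init g) (g (Fin.last p) * t)))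
        (B.ρ (prodAll g * t) b) := by
    simp only [normHomotopyR]
    refine (Fintype.sum_equiv (Equiv.mulLeft (g (Fin.last p))) _ _ fun t => ?_).symm
    simp only [Equiv.coe_mulLeft, prodAll_init g, mul_assoc]
  rw [e0, e2]
  simp only [e1, Finset.smul_sum]
  rw [Finset.sum_comm, ← Finset.sum_add_distrib, ← Finset.sum_add_distrib]
  have e3 : ∀ t : G, φ.toLin (A.ρ (g 0) (a (Fin.snoc (fun i => g i.succ) t)))
        (B.ρ (prodAll g * t) b) +
      (∑ j : Fin p, (-1 : k) ^ ((j : ℕ) + 1) •
          φ.toLin (a (Fin.snoc (Fin.contractNth j.castSucc (· * ·) g) t))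
            (B.ρ (prodAll g * t) b) +
        (-1 : k) ^ (p + 1) • φ.toLin (a (Fin.snoc (Fin.init g) (g (Fin.last p) * t)))
          (B.ρ (prodAll g * t) b)) =
      (-1 : k) ^ (p + 1) • φ.toLin (a g) (B.ρ (prodAll g * t) b) := by
    intro t
    have := congrArg (fun v => φ.toLin v (B.ρ (prodAll g * t) b)) (key t)
    simpa only [map_add, map_sum, map_smul, LinearMap.add_apply, LinearMap.sum_apply,
      LinearMap.smul_apply] using this
  rw [Finset.sum_congr rfl fun t _ => e3 t, ← Finset.smul_sum, ← map_sum]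
  congr 2
  exact Fintype.sum_equiv (Equiv.mulLeft (prodAll g)) _ _ fun t => rfl

/-- **`x ∪ N b = 0`** for `x` of positive degree. -/
theorem cup_normCocycle_right (φ : Pairing A B C) (b : B.V) {p n : ℕ} (h : (p + 1) + 0 = n)
    (x : groupCohomology A (p + 1)) :
    cup φ h x (cls B 0 (normCocycle B b)) = 0 := by
  induction x using cls_induction_on with
  | h a =>
  obtain rfl : n = p + 1 := by omega
  rw [cup_cls, cls_eq_zero_iff_succ]
  refine ⟨(-1 : k) ^ (p + 1) • normHomotopyR φ a.1 b, ?_⟩
  funext g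
  rw [dF, map_smul, ← dF, Pi.smul_apply, dF_normHomotopyR φ a.1 (mem_Z.1 a.2) b g, smul_smul,
    ← pow_add, ← two_mul, pow_mul, neg_one_sq, one_pow, one_smul, cupZ_coe, cupFun_apply]
  have h1 : tupleFst h g = g := by funext i; simp [tupleFst]
  have h2 : (normCocycle B b).1 (tupleSnd h g) = ∑ s : G, B.ρ s b := rfl
  have h3 : B.ρ (prodFst (p + 1) (by omega) g) (∑ s : G, B.ρ s b) = ∑ s : G, B.ρ s b := by
    rw [map_sum]
    exact Fintype.sum_equiv (Equiv.mulLeft (prodFst (p + 1) (by omega) g))
      (fun s => B.ρ (prodFst (p + 1) (by omega) g) (B.ρ s b)) (fun s => B.ρ s b) (fun t => by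
        simp only [Equiv.coe_mulLeft, map_mul, Module.End.mul_apply])
  rw [h1, h2, h3]

end Fermat.Agent.CFT.Cup
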